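import Fermat.Agent.S37.H766.MSepChart
import Fermat.Agent.S18.H905.ConstInst
import Fermat.Agent.S24.FFFinite

/-!
# S37 / E-c [MSEP] (helper766): multiset separation for `Core.GeoRed`

`k = A/𝔪`, `F_k = modularFunctionFieldFullC k N`.

* `msep_chart` : abstract chart version (coordinate `x : IntElt A N`, separation hypothesis in
  the shape of `GeoRed.sep_fin`/`sep_inf`, existence of values `hres` as hypothesis).
* `hres_of_prime` : existence of values at all places of `F_k` (`A` over `ℓ ∤ N`).
* `msep_fin`, `msep_inf` : **E-c for a `GeoRed`**: two multisets `S, S'` of places of `F_k` at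
  which `j̄` (resp. `1/j̄`) is regular, such that for every `c : IntElt A N` with `c.IsFin`
  (resp. `c.IsInf`) there is a value function `v` (`HasValue Q c.sp (v Q)` on `S + S'`) with
  `S.map v = S'.map v`, are equal.
* `msep_fin_prod`, `msep_inf_prod` : the same with the hypothesis
  `∏_{Q ∈ S} (Y - v Q) = ∏_{Q ∈ S'} (Y - v Q)` in `k[Y]`.
* `msep_fin_divisor`, `msep_inf_divisor` : the same for effective divisors `D, D' : Divisor k F_k`
  and the polynomials `∏_Q (Y - v Q)^{D Q}`.
-/

set_option autoImplicit false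
set_option synthInstance.maxHeartbeats 400000

noncomputable section

namespace Fermat.Agent.S37.H766

open ModularCurve AlgebraicCurve HahnSeries Fermat.Agent.S37.Core

variable {A : ValuationSubring (AlgebraicClosure ℚ)} {N : ℕ}

/-- existence of values at all places of `F_k` -/
def HasRes (A : ValuationSubring (AlgebraicClosure ℚ)) (N : ℕ) : Prop :=
  ∀ (Q : Place (IsLocalRing.ResidueField A)
      (modularFunctionFieldFullC (IsLocalRing.ResidueField A) N))
    (f : modularFunctionFieldFullC (IsLocalRing.ResidueField A) N),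
    f ∈ Q.toValuationSubring → ∃ a : IsLocalRing.ResidueField A, HasValue Q f a

/-- the places of `F_k` at which `x̄` is regular -/
def ChartPt (x : IntElt A N) : Type :=
  {Q : Place (IsLocalRing.ResidueField A)
      (modularFunctionFieldFullC (IsLocalRing.ResidueField A) N) //
    ∃ a : IsLocalRing.ResidueField A, HasValue Q x.sp a}

/-- the underlying place -/
def ChartPt.place {x : IntElt A N} (Q : ChartPt x) :
    Place (IsLocalRing.ResidueField A)
      (modularFunctionFieldFullC (IsLocalRing.ResidueField A) N) := Q.1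

/-- constructor -/
def ChartPt.of {x : IntElt A N}
    (Q : Place (IsLocalRing.ResidueField A)
      (modularFunctionFieldFullC (IsLocalRing.ResidueField A) N))
    (hQ : ∃ a : IsLocalRing.ResidueField A, HasValue Q x.sp a) : ChartPt x := ⟨Q, hQ⟩

theorem ChartPt.of_place {x : IntElt A N}
    (Q : Place (IsLocalRing.ResidueField A)
      (modularFunctionFieldFullC (IsLocalRing.ResidueField A) N))
    (hQ : ∃ a : IsLocalRing.ResidueField A, HasValue Q x.sp a) :
    (ChartPt.of (x := x) Q hQ).place = Q := rfl

theorem ChartPt.ext' {x : IntElt A N} {Q Q' : ChartPt x} (h : Q.place = Q'.place) : Q = Q' :=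
  Subtype.ext h

theorem ChartPt.reg {x : IntElt A N} (Q : ChartPt x) (y : chartRing A N x.y) :
    (spHom x.y y : modularFunctionFieldFullC (IsLocalRing.ResidueField A) N) ∈
      Q.place.toValuationSubring :=
  spHom_mem x Q.1 (hasValue_mem Q.2.choose_spec) y

/-- evaluation of the reductions of the chart ring at a point of the chart -/
def evPt (hres : HasRes A N) {x : IntElt A N} (Q : ChartPt x) :
    chartRing A N x.y →+* IsLocalRing.ResidueField A :=
  evHom Q.place (bijective_algebraMap_residueField Q.place (hres Q.place)) (spHom x.y) Q.reg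

theorem evPt_eq_iff (hres : HasRes A N) {x : IntElt A N} (Q : ChartPt x)
    (y : chartRing A N x.y) (b : IsLocalRing.ResidueField A) :
    evPt hres Q y = b ↔ HasValue Q.place (spHom x.y y) b :=
  evHom_eq_iff Q.place _ (spHom x.y) Q.reg y b

theorem evPt_const (hres : HasRes A N) (x : IntElt A N) (c : IsLocalRing.ResidueField A) :
    ∃ b : chartRing A N x.y, ∀ Q : ChartPt x, evPt hres Q b = c := by
  obtain ⟨a, rfl⟩ := IsLocalRing.residue_surjective c
  refine ⟨⟨HahnSeries.C a, C_mem_chartRing x.y a⟩, fun Q => ?_⟩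
  rw [evPt_eq_iff, spHom_C]
  exact hasValue_algebraMap Q.place _

theorem evPt_sep (hres : HasRes A N) (x : IntElt A N)
    (hsep : ∀ (Q Q' : Place (IsLocalRing.ResidueField A)
        (modularFunctionFieldFullC (IsLocalRing.ResidueField A) N))
      (a : IsLocalRing.ResidueField A), HasValue Q x.sp a →
      (∀ c : IntElt A N, (evalSeries A x.y).IsIntegralElem c.y →
        ∀ b : IsLocalRing.ResidueField A, HasValue Q c.sp b → HasValue Q' c.sp b) → Q = Q')
    (Q Q' : ChartPt x) (hQ : ∀ f, evPt hres Q f = evPt hres Q' f) : Q = Q' := by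
  apply ChartPt.ext'
  refine hsep Q.place Q'.place Q.2.choose Q.2.choose_spec fun c hc b hb => ?_
  have h1 : evPt hres Q ⟨c.y, intElt_mem_chartRing c hc⟩ = b :=
    (evPt_eq_iff hres Q _ b).mpr hb
  rw [hQ] at h1
  exact (evPt_eq_iff hres Q' _ b).mp h1

/-- lifting a multiset of places to a multiset of points of the chart -/
def liftPt (x : IntElt A N)
    (S : Multiset (Place (IsLocalRing.ResidueField A)
      (modularFunctionFieldFullC (IsLocalRing.ResidueField A) N)))
    (hS : ∀ Q ∈ S, ∃ a : IsLocalRing.ResidueField A, HasValue Q x.sp a) :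
    Multiset (ChartPt x) :=
  S.pmap (ChartPt.of (x := x)) hS

theorem liftPt_map_place (x : IntElt A N)
    (S : Multiset (Place (IsLocalRing.ResidueField A)
      (modularFunctionFieldFullC (IsLocalRing.ResidueField A) N)))
    (hS : ∀ Q ∈ S, ∃ a : IsLocalRing.ResidueField A, HasValue Q x.sp a) :
    (liftPt x S hS).map ChartPt.place = S := by
  unfold liftPt
  rw [Multiset.map_pmap]
  have e : (fun (Q : Place (IsLocalRing.ResidueField A)
      (modularFunctionFieldFullC (IsLocalRing.ResidueField A) N))
      (hQ : ∃ a : IsLocalRing.ResidueField A, HasValue Q x.sp a) =>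
        (ChartPt.of (x := x) Q hQ).place) = fun Q _ => id Q := rfl
  rw [e, Multiset.pmap_eq_map, Multiset.map_id]

theorem liftPt_map_ev (hres : HasRes A N) (x : IntElt A N)
    (S : Multiset (Place (IsLocalRing.ResidueField A)
      (modularFunctionFieldFullC (IsLocalRing.ResidueField A) N)))
    (hS : ∀ Q ∈ S, ∃ a : IsLocalRing.ResidueField A, HasValue Q x.sp a)
    (f : chartRing A N x.y)
    (v : Place (IsLocalRing.ResidueField A)
      (modularFunctionFieldFullC (IsLocalRing.ResidueField A) N) → IsLocalRing.ResidueField A)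
    (hv : ∀ Q ∈ S, HasValue Q (spHom x.y f) (v Q)) :
    (liftPt x S hS).map (fun Q => evPt hres Q f) = S.map v := by
  unfold liftPt
  rw [Multiset.map_pmap, ← Multiset.pmap_eq_map _ v S hS]
  refine Multiset.pmap_congr S fun Q hQ h1 h2 => ?_
  exact (evPt_eq_iff hres (ChartPt.of Q h1) f (v Q)).mpr (hv Q hQ)

/-- **Multiset separation on a chart**, value-multiset form. -/
theorem msep_chart (x : IntElt A N) (hres : HasRes A N)
    (hsep : ∀ (Q Q' : Place (IsLocalRing.ResidueField A)
        (modularFunctionFieldFullC (IsLocalRing.ResidueField A) N))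
      (a : IsLocalRing.ResidueField A), HasValue Q x.sp a →
      (∀ c : IntElt A N, (evalSeries A x.y).IsIntegralElem c.y →
        ∀ b : IsLocalRing.ResidueField A, HasValue Q c.sp b → HasValue Q' c.sp b) → Q = Q')
    (S S' : Multiset (Place (IsLocalRing.ResidueField A)
      (modularFunctionFieldFullC (IsLocalRing.ResidueField A) N)))
    (hS : ∀ Q ∈ S, ∃ a : IsLocalRing.ResidueField A, HasValue Q x.sp a)
    (hS' : ∀ Q ∈ S', ∃ a : IsLocalRing.ResidueField A, HasValue Q x.sp a)
    (h : ∀ c : IntElt A N, (evalSeries A x.y).IsIntegralElem c.y →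
      ∃ v : Place (IsLocalRing.ResidueField A)
          (modularFunctionFieldFullC (IsLocalRing.ResidueField A) N) →
          IsLocalRing.ResidueField A,
        (∀ Q ∈ S + S', HasValue Q c.sp (v Q)) ∧ S.map v = S'.map v) :
    S = S' := by
  have key : liftPt x S hS = liftPt x S' hS' := by
    refine multiset_eq_of_forall_map_eq (evPt hres) (evPt_const hres x)
      (evPt_sep hres x hsep) _ _ fun f => ?_
    obtain ⟨v, hv, hvS⟩ := h (ofChart f) f.2.2.2
    rw [liftPt_map_ev hres x S hS f v (fun Q hQ => hv Q (Multiset.mem_add.mpr (Or.inl hQ))),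
      liftPt_map_ev hres x S' hS' f v (fun Q hQ => hv Q (Multiset.mem_add.mpr (Or.inr hQ))),
      hvS]
  rw [← liftPt_map_place x S hS, ← liftPt_map_place x S' hS', key]

/-- **Multiset separation on a chart**, polynomial form. -/
theorem msep_chart_prod (x : IntElt A N) (hres : HasRes A N)
    (hsep : ∀ (Q Q' : Place (IsLocalRing.ResidueField A)
        (modularFunctionFieldFullC (IsLocalRing.ResidueField A) N))
      (a : IsLocalRing.ResidueField A), HasValue Q x.sp a →
      (∀ c : IntElt A N, (evalSeries A x.y).IsIntegralElem c.y →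
        ∀ b : IsLocalRing.ResidueField A, HasValue Q c.sp b → HasValue Q' c.sp b) → Q = Q')
    (S S' : Multiset (Place (IsLocalRing.ResidueField A)
      (modularFunctionFieldFullC (IsLocalRing.ResidueField A) N)))
    (hS : ∀ Q ∈ S, ∃ a : IsLocalRing.ResidueField A, HasValue Q x.sp a)
    (hS' : ∀ Q ∈ S', ∃ a : IsLocalRing.ResidueField A, HasValue Q x.sp a)
    (h : ∀ c : IntElt A N, (evalSeries A x.y).IsIntegralElem c.y →
      ∃ v : Place (IsLocalRing.ResidueField A)
          (modularFunctionFieldFullC (IsLocalRing.ResidueField A) N) →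
          IsLocalRing.ResidueField A,
        (∀ Q ∈ S + S', HasValue Q c.sp (v Q)) ∧
          (S.map (fun Q => (Polynomial.X : Polynomial (IsLocalRing.ResidueField A)) -
            Polynomial.C (v Q))).prod =
          (S'.map (fun Q => (Polynomial.X : Polynomial (IsLocalRing.ResidueField A)) -
            Polynomial.C (v Q))).prod) :
    S = S' := by
  refine msep_chart x hres hsep S S' hS hS' fun c hc => ?_
  obtain ⟨v, hv, hprod⟩ := h c hc
  refine ⟨v, hv, ?_⟩
  have h1 := congrArg Polynomial.roots hprod
  have e : ∀ R : Multiset (Place (IsLocalRing.ResidueField A)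
      (modularFunctionFieldFullC (IsLocalRing.ResidueField A) N)),
      (R.map (fun Q => (Polynomial.X : Polynomial (IsLocalRing.ResidueField A)) -
        Polynomial.C (v Q))) =
      (R.map v).map (fun a => (Polynomial.X : Polynomial (IsLocalRing.ResidueField A)) -
        Polynomial.C a) := by
    intro R
    rw [Multiset.map_map]
    rfl
  rw [e S, e S', Polynomial.roots_multiset_prod_X_sub_C,
    Polynomial.roots_multiset_prod_X_sub_C] at h1
  exact h1

/-- the multiset of an effective divisor -/
def divMultiset {P : Type*} (D : P →₀ ℤ) : Multiset P :=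
  Finsupp.toMultiset (D.mapRange Int.toNat Int.toNat_zero)

theorem mem_divMultiset {P : Type*} (D : P →₀ ℤ) (Q : P) (hQ : Q ∈ divMultiset D) :
    Q ∈ D.support := by
  unfold divMultiset at hQ
  rw [Finsupp.mem_toMultiset] at hQ
  have := Finsupp.support_mapRange hQ
  exact this

theorem eq_of_divMultiset_eq {P : Type*} (D D' : P →₀ ℤ) (hD : ∀ Q, 0 ≤ D Q)
    (hD' : ∀ Q, 0 ≤ D' Q) (h : divMultiset D = divMultiset D') : D = D' := by
  classical
  unfold divMultiset at h
  have h1 : D.mapRange Int.toNat Int.toNat_zero = D'.mapRange Int.toNat Int.toNat_zero := by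
    rw [← Finsupp.toMultiset_toFinsupp (D.mapRange Int.toNat Int.toNat_zero),
      ← Finsupp.toMultiset_toFinsupp (D'.mapRange Int.toNat Int.toNat_zero), h]
  ext Q
  have h2 := DFunLike.congr_fun h1 Q
  rw [Finsupp.mapRange_apply, Finsupp.mapRange_apply] at h2
  rw [← Int.toNat_of_nonneg (hD Q), ← Int.toNat_of_nonneg (hD' Q), h2]

theorem divMultiset_map_prod {P : Type*} {R : Type*} [CommRing R] (D : P →₀ ℤ) (g : P → R) :
    ((divMultiset D).map g).prod = D.prod (fun Q n => g Q ^ n.toNat) := by
  classical
  unfold divMultiset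
  rw [Finsupp.toMultiset_map, Finsupp.prod_toMultiset, Finsupp.prod_mapDomain_index
    (fun _ => pow_zero _) (fun _ _ _ => pow_add _ _ _),
    Finsupp.prod_mapRange_index (fun _ => pow_zero _)]

/-- **Multiset separation on a chart**, effective-divisor form. -/
theorem msep_chart_divisor (x : IntElt A N) (hres : HasRes A N)
    (hsep : ∀ (Q Q' : Place (IsLocalRing.ResidueField A)
        (modularFunctionFieldFullC (IsLocalRing.ResidueField A) N))
      (a : IsLocalRing.ResidueField A), HasValue Q x.sp a →
      (∀ c : IntElt A N, (evalSeries A x.y).IsIntegralElem c.y →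
        ∀ b : IsLocalRing.ResidueField A, HasValue Q c.sp b → HasValue Q' c.sp b) → Q = Q')
    (D D' : Divisor (IsLocalRing.ResidueField A)
      (modularFunctionFieldFullC (IsLocalRing.ResidueField A) N))
    (hD : ∀ Q, 0 ≤ D Q) (hD' : ∀ Q, 0 ≤ D' Q)
    (hS : ∀ Q ∈ D.support, ∃ a : IsLocalRing.ResidueField A, HasValue Q x.sp a)
    (hS' : ∀ Q ∈ D'.support, ∃ a : IsLocalRing.ResidueField A, HasValue Q x.sp a)
    (h : ∀ c : IntElt A N, (evalSeries A x.y).IsIntegralElem c.y →
      ∃ v : Place (IsLocalRing.ResidueField A)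
          (modularFunctionFieldFullC (IsLocalRing.ResidueField A) N) →
          IsLocalRing.ResidueField A,
        (∀ Q, Q ∈ D.support ∨ Q ∈ D'.support → HasValue Q c.sp (v Q)) ∧
          D.prod (fun Q n => ((Polynomial.X : Polynomial (IsLocalRing.ResidueField A)) -
            Polynomial.C (v Q)) ^ n.toNat) =
          D'.prod (fun Q n => ((Polynomial.X : Polynomial (IsLocalRing.ResidueField A)) -
            Polynomial.C (v Q)) ^ n.toNat)) :
    D = D' := by
  refine eq_of_divMultiset_eq D D' hD hD' ?_
  refine msep_chart_prod x hres hsep _ _ (fun Q hQ => hS Q (mem_divMultiset D Q hQ))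
    (fun Q hQ => hS' Q (mem_divMultiset D' Q hQ)) fun c hc => ?_
  obtain ⟨v, hv, hprod⟩ := h c hc
  refine ⟨v, fun Q hQ => hv Q ?_, ?_⟩
  · rcases Multiset.mem_add.mp hQ with h1 | h1
    · exact Or.inl (mem_divMultiset D Q h1)
    · exact Or.inr (mem_divMultiset D' Q h1)
  · rw [divMultiset_map_prod, divMultiset_map_prod]
    exact hprod

section Prime

variable [NeZero N]

/-- existence of values at all places of `F_k`, for `A` over `ℓ ∤ N` -/
theorem hasRes_of_prime (ℓ : ℕ) (hℓ : ℓ.Prime) (hℓN : ¬ ℓ ∣ N) (hA : A.LiesOverPrime ℓ) :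
    HasRes A N := by
  have : Fact ℓ.Prime := ⟨hℓ⟩
  have := Fermat.Agent.S18.H905.isAlgClosed_residueField A
  have := Fermat.Agent.S18.H905.finiteDimensional_fullC (IsLocalRing.ResidueField A) N
    (Fermat.Agent.S18.H905.hchar_residue N hℓN A hA)
  intro Q f hf
  exact Fermat.Agent.S24.FF.exists_const_sub_mem_nonunits Q
    (Fermat.Agent.S18.H905.transcendental_jC (IsLocalRing.ResidueField A) N) hf

end Prime

section GeoRed

variable [NeZero N]

/-- the separation hypothesis of `msep_chart` from `GeoRed.sep_fin` -/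
theorem sep_of_geoRed_fin (G : GeoRed A N) (j : IntElt A N) (hj : j.y = jqModC A)
    (Q Q' : Place (IsLocalRing.ResidueField A)
      (modularFunctionFieldFullC (IsLocalRing.ResidueField A) N))
    (a : IsLocalRing.ResidueField A) (ha : HasValue Q j.sp a)
    (h : ∀ c : IntElt A N, (evalSeries A j.y).IsIntegralElem c.y →
      ∀ b : IsLocalRing.ResidueField A, HasValue Q c.sp b → HasValue Q' c.sp b) : Q = Q' :=
  G.sep_fin j hj Q Q' a ha fun c hc b hb => h c (by rw [hj]; exact hc) b hb

/-- the separation hypothesis of `msep_chart` from `GeoRed.sep_inf` -/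
theorem sep_of_geoRed_inf (G : GeoRed A N) (j : IntElt A N) (hj : j.y * jqModC A = 1)
    (Q Q' : Place (IsLocalRing.ResidueField A)
      (modularFunctionFieldFullC (IsLocalRing.ResidueField A) N))
    (a : IsLocalRing.ResidueField A) (ha : HasValue Q j.sp a)
    (h : ∀ c : IntElt A N, (evalSeries A j.y).IsIntegralElem c.y →
      ∀ b : IsLocalRing.ResidueField A, HasValue Q c.sp b → HasValue Q' c.sp b) : Q = Q' :=
  G.sep_inf j hj Q Q' a ha fun c hc b hb =>
    h c ((isInf_iff_isIntegralElem c hj).mp hc) b hb

/-- **E-c [MSEP], finite chart, value-multiset form.** -/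
theorem msep_fin (G : GeoRed A N) (hres : HasRes A N) (j : IntElt A N) (hj : j.y = jqModC A)
    (S S' : Multiset (Place (IsLocalRing.ResidueField A)
      (modularFunctionFieldFullC (IsLocalRing.ResidueField A) N)))
    (hS : ∀ Q ∈ S, ∃ a : IsLocalRing.ResidueField A, HasValue Q j.sp a)
    (hS' : ∀ Q ∈ S', ∃ a : IsLocalRing.ResidueField A, HasValue Q j.sp a)
    (h : ∀ c : IntElt A N, c.IsFin →
      ∃ v : Place (IsLocalRing.ResidueField A)
          (modularFunctionFieldFullC (IsLocalRing.ResidueField A) N) →
          IsLocalRing.ResidueField A,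
        (∀ Q ∈ S + S', HasValue Q c.sp (v Q)) ∧ S.map v = S'.map v) :
    S = S' :=
  msep_chart j hres (sep_of_geoRed_fin G j hj) S S' hS hS'
    fun c hc => h c (by rw [hj] at hc; exact hc)

/-- **E-c [MSEP], chart at infinity, value-multiset form.** -/
theorem msep_inf (G : GeoRed A N) (hres : HasRes A N) (j : IntElt A N) (hj : j.y * jqModC A = 1)
    (S S' : Multiset (Place (IsLocalRing.ResidueField A)
      (modularFunctionFieldFullC (IsLocalRing.ResidueField A) N)))
    (hS : ∀ Q ∈ S, ∃ a : IsLocalRing.ResidueField A, HasValue Q j.sp a)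
    (hS' : ∀ Q ∈ S', ∃ a : IsLocalRing.ResidueField A, HasValue Q j.sp a)
    (h : ∀ c : IntElt A N, c.IsInf →
      ∃ v : Place (IsLocalRing.ResidueField A)
          (modularFunctionFieldFullC (IsLocalRing.ResidueField A) N) →
          IsLocalRing.ResidueField A,
        (∀ Q ∈ S + S', HasValue Q c.sp (v Q)) ∧ S.map v = S'.map v) :
    S = S' :=
  msep_chart j hres (sep_of_geoRed_inf G j hj) S S' hS hS'
    fun c hc => h c ((isInf_iff_isIntegralElem c hj).mpr hc)

/-- **E-c [MSEP], finite chart, effective-divisor form**: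
`∏_Q (Y - c̄(Q))^{D Q} = ∏_Q (Y - c̄(Q))^{D' Q}` for all `c` with `c.IsFin` implies `D = D'`. -/
theorem msep_fin_divisor (G : GeoRed A N) (hres : HasRes A N) (j : IntElt A N) (hj : j.y = jqModC A)
    (D D' : Divisor (IsLocalRing.ResidueField A)
      (modularFunctionFieldFullC (IsLocalRing.ResidueField A) N))
    (hD : ∀ Q, 0 ≤ D Q) (hD' : ∀ Q, 0 ≤ D' Q)
    (hS : ∀ Q ∈ D.support, ∃ a : IsLocalRing.ResidueField A, HasValue Q j.sp a)
    (hS' : ∀ Q ∈ D'.support, ∃ a : IsLocalRing.ResidueField A, HasValue Q j.sp a)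
    (h : ∀ c : IntElt A N, c.IsFin →
      ∃ v : Place (IsLocalRing.ResidueField A)
          (modularFunctionFieldFullC (IsLocalRing.ResidueField A) N) →
          IsLocalRing.ResidueField A,
        (∀ Q, Q ∈ D.support ∨ Q ∈ D'.support → HasValue Q c.sp (v Q)) ∧
          D.prod (fun Q n => ((Polynomial.X : Polynomial (IsLocalRing.ResidueField A)) -
            Polynomial.C (v Q)) ^ n.toNat) =
          D'.prod (fun Q n => ((Polynomial.X : Polynomial (IsLocalRing.ResidueField A)) -
            Polynomial.C (v Q)) ^ n.toNat)) :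
    D = D' :=
  msep_chart_divisor j hres (sep_of_geoRed_fin G j hj) D D' hD hD' hS hS'
    fun c hc => h c (by rw [hj] at hc; exact hc)

/-- **E-c [MSEP], chart at infinity, effective-divisor form.** -/
theorem msep_inf_divisor (G : GeoRed A N) (hres : HasRes A N) (j : IntElt A N) (hj : j.y * jqModC A = 1)
    (D D' : Divisor (IsLocalRing.ResidueField A)
      (modularFunctionFieldFullC (IsLocalRing.ResidueField A) N))
    (hD : ∀ Q, 0 ≤ D Q) (hD' : ∀ Q, 0 ≤ D' Q)
    (hS : ∀ Q ∈ D.support, ∃ a : IsLocalRing.ResidueField A, HasValue Q j.sp a)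
    (hS' : ∀ Q ∈ D'.support, ∃ a : IsLocalRing.ResidueField A, HasValue Q j.sp a)
    (h : ∀ c : IntElt A N, c.IsInf →
      ∃ v : Place (IsLocalRing.ResidueField A)
          (modularFunctionFieldFullC (IsLocalRing.ResidueField A) N) →
          IsLocalRing.ResidueField A,
        (∀ Q, Q ∈ D.support ∨ Q ∈ D'.support → HasValue Q c.sp (v Q)) ∧
          D.prod (fun Q n => ((Polynomial.X : Polynomial (IsLocalRing.ResidueField A)) -
            Polynomial.C (v Q)) ^ n.toNat) =
          D'.prod (fun Q n => ((Polynomial.X : Polynomial (IsLocalRing.ResidueField A)) -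
            Polynomial.C (v Q)) ^ n.toNat)) :
    D = D' :=
  msep_chart_divisor j hres (sep_of_geoRed_inf G j hj) D D' hD hD' hS hS'
    fun c hc => h c ((isInf_iff_isIntegralElem c hj).mpr hc)

end GeoRed

end Fermat.Agent.S37.H766
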