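import Mathlib

/-!
# S37 / E-c [MSEP] (helper766): multiset separation, generic part (Mathlib only)

Setting: a commutative ring `B` ("functions"), a field `k`, a type `Pt` of "points" with
evaluation homomorphisms `ev Q : B →+* k`, such that
* `hconst` : every constant `c : k` is the value of some `b : B` at all points,
* `hsep`   : two points at which all functions take the same values are equal.

Results:
* `exists_indicator` : for a finite set `T` of points and a point `Q₀` there is `f : B` with
  `f(Q₀) = 1` and `f(Q) = 0` for all `Q ∈ T`, `Q ≠ Q₀`  (no CRT needed);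
* `multiset_eq_of_forall_map_eq` : two multisets of points with the same multisets of values
  under every `f : B` are equal;
* `multiset_eq_of_forall_prod_eq` : the same with
  `∏_{Q ∈ S} (Y - f(Q)) = ∏_{Q ∈ S'} (Y - f(Q))` in `k[Y]` as hypothesis;
* `finsupp_eq_of_forall_prod_eq` : the same for effective divisors `D, D' : Pt →₀ ℕ`
  with `∏_Q (Y - f(Q))^{D Q}`.
-/

set_option autoImplicit false

namespace Fermat.Agent.S37.H766

open Polynomial

section Generic

variable {k : Type*} [Field k] {B : Type*} [CommRing B] {Pt : Type*}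

/-- **Indicator functions** from pairwise separation. -/
theorem exists_indicator (ev : Pt → B →+* k)
    (hconst : ∀ c : k, ∃ b : B, ∀ Q, ev Q b = c)
    (hsep : ∀ Q Q', (∀ f, ev Q f = ev Q' f) → Q = Q')
    (T : Finset Pt) (Q₀ : Pt) :
    ∃ f : B, ev Q₀ f = 1 ∧ ∀ Q ∈ T, Q ≠ Q₀ → ev Q f = 0 := by
  classical
  induction T using Finset.induction_on with
  | empty =>
    obtain ⟨b, hb⟩ := hconst 1
    exact ⟨b, hb Q₀, fun Q hQ => absurd hQ (Finset.notMem_empty Q)⟩
  | insert Q T _ ih =>
    obtain ⟨f, hf1, hf0⟩ := ih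
    by_cases hQQ : Q = Q₀
    · subst hQQ
      refine ⟨f, hf1, fun Q' hQ' hne => ?_⟩
      rcases Finset.mem_insert.mp hQ' with h | h
      · exact absurd h hne
      · exact hf0 Q' h hne
    · have hex : ∃ g, ev Q₀ g ≠ ev Q g := by
        by_contra hcon
        refine hQQ (hsep Q₀ Q fun f => ?_).symm
        by_contra hne
        exact hcon ⟨f, hne⟩
      obtain ⟨g, hg⟩ := hex
      obtain ⟨a, ha⟩ := hconst (ev Q g)
      obtain ⟨u, hu⟩ := hconst ((ev Q₀ g - ev Q g)⁻¹)
      refine ⟨f * ((g - a) * u), ?_, fun Q' hQ' hne => ?_⟩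
      · rw [map_mul, map_mul, map_sub, hf1, ha, hu, one_mul,
          mul_inv_cancel₀ (sub_ne_zero.mpr hg)]
      · rcases Finset.mem_insert.mp hQ' with h | h
        · subst h
          rw [map_mul, map_mul, map_sub, ha, sub_self, zero_mul, mul_zero]
        · rw [map_mul, hf0 Q' h hne, zero_mul]

/-- **Multiset separation**, value-multiset form. -/
theorem multiset_eq_of_forall_map_eq (ev : Pt → B →+* k)
    (hconst : ∀ c : k, ∃ b : B, ∀ Q, ev Q b = c)
    (hsep : ∀ Q Q', (∀ f, ev Q f = ev Q' f) → Q = Q')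
    (S S' : Multiset Pt)
    (h : ∀ f : B, S.map (fun Q => ev Q f) = S'.map (fun Q => ev Q f)) : S = S' := by
  classical
  ext Q₀
  obtain ⟨f, hf1, hf0⟩ := exists_indicator ev hconst hsep (S.toFinset ∪ S'.toFinset) Q₀
  have key : ∀ R : Multiset Pt, R.toFinset ⊆ S.toFinset ∪ S'.toFinset →
      (R.map (fun Q => ev Q f)).count 1 = R.count Q₀ := by
    intro R hR
    rw [Multiset.count_map, Multiset.count_eq_card_filter_eq]
    congr 1
    refine Multiset.filter_congr fun Q hQ => ?_
    constructor
    · intro h1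
      by_contra hne
      have hQT : Q ∈ S.toFinset ∪ S'.toFinset := hR (Multiset.mem_toFinset.mpr hQ)
      have h0 := hf0 Q hQT (fun h => hne h.symm)
      rw [h0] at h1
      exact one_ne_zero h1
    · intro h1
      rw [← h1, hf1]
  rw [← key S Finset.subset_union_left, ← key S' Finset.subset_union_right, h f]

/-- **Multiset separation**, polynomial form:
`∏_{Q ∈ S} (Y - f(Q)) = ∏_{Q ∈ S'} (Y - f(Q))` for all `f` implies `S = S'`. -/
theorem multiset_eq_of_forall_prod_eq (ev : Pt → B →+* k)
    (hconst : ∀ c : k, ∃ b : B, ∀ Q, ev Q b = c)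
    (hsep : ∀ Q Q', (∀ f, ev Q f = ev Q' f) → Q = Q')
    (S S' : Multiset Pt)
    (h : ∀ f : B, (S.map (fun Q => (X : k[X]) - C (ev Q f))).prod =
      (S'.map (fun Q => (X : k[X]) - C (ev Q f))).prod) : S = S' := by
  refine multiset_eq_of_forall_map_eq ev hconst hsep S S' fun f => ?_
  have h1 := congrArg Polynomial.roots (h f)
  have e : ∀ R : Multiset Pt, (R.map (fun Q => (X : k[X]) - C (ev Q f))) =
      (R.map (fun Q => ev Q f)).map (fun a => (X : k[X]) - C a) := by
    intro R
    rw [Multiset.map_map]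
    rfl
  rw [e S, e S', Polynomial.roots_multiset_prod_X_sub_C,
    Polynomial.roots_multiset_prod_X_sub_C] at h1
  exact h1

/-- the multiset of an effective divisor -/
theorem finsupp_toMultiset_map_prod (D : Pt →₀ ℕ) (v : Pt → k) :
    ((Finsupp.toMultiset D).map (fun Q => (X : k[X]) - C (v Q))).prod =
      D.prod (fun Q n => ((X : k[X]) - C (v Q)) ^ n) := by
  classical
  rw [Finsupp.toMultiset_map, Finsupp.prod_toMultiset, Finsupp.prod_mapDomain_index]
  · intro a
    exact pow_zero _
  · intro a m n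
    exact pow_add _ _ _

/-- **Multiset separation**, effective-divisor form. -/
theorem finsupp_eq_of_forall_prod_eq (ev : Pt → B →+* k)
    (hconst : ∀ c : k, ∃ b : B, ∀ Q, ev Q b = c)
    (hsep : ∀ Q Q', (∀ f, ev Q f = ev Q' f) → Q = Q')
    (D D' : Pt →₀ ℕ)
    (h : ∀ f : B, D.prod (fun Q n => ((X : k[X]) - C (ev Q f)) ^ n) =
      D'.prod (fun Q n => ((X : k[X]) - C (ev Q f)) ^ n)) : D = D' := by
  classical
  have := multiset_eq_of_forall_prod_eq ev hconst hsep (Finsupp.toMultiset D)
    (Finsupp.toMultiset D') (fun f => by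
      rw [finsupp_toMultiset_map_prod, finsupp_toMultiset_map_prod]
      exact h f)
  rw [← Finsupp.toMultiset_toFinsupp D, ← Finsupp.toMultiset_toFinsupp D', this]

end Generic

end Fermat.Agent.S37.H766
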