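import Fermat.Agent.S37.Core.Geo
import Fermat.Agent.S37.H766.MSepGeneric

/-!
# S37 / E-c [MSEP] (helper766): multiset separation on a chart of the special fibre

* `HasValue` API: `hasValue_mem`, `hasValue_unique`, `hasValue_algebraMap`, the value
  homomorphism `evHom` at a place with trivial residue field extension, `evHom_eq_iff`.
* `chartRing A N x` : the subring of `A((q))` of all `y` with `y ∈ F`, `ȳ ∈ F_k`, `y` integral over
  `A[x]` (for `x = j` these are the `IntElt` with `IsFin`, for `x = j⁻¹` those with `IsInf`);
  `IntElt.add`, `IntElt.mul`, `IntElt.const`, ... (ring operations on `IntElt`).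
* `msep_chart` : **multiset separation on the chart of `x`**: if the reductions of the
  elements of `chartRing A N x` separate the places of `F_k` at which `x̄` is regular, then two
  multisets of such places with the same value multisets under all these reductions are equal.
-/

set_option autoImplicit false
set_option synthInstance.maxHeartbeats 400000

noncomputable section

namespace Fermat.Agent.S37.H766

open ModularCurve AlgebraicCurve HahnSeries Fermat.Agent.S37.Core

section HasValueAPI

variable {K F : Type*} [Field K] [Field F] [Algebra K F]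

theorem hasValue_mem {P : Place K F} {f : F} {b : K} (h : HasValue P f b) :
    f ∈ P.toValuationSubring := by
  have h1 : f - algebraMap K F b ∈ P.toValuationSubring :=
    ((ValuationSubring.mem_nonunits_iff_exists_mem_maximalIdeal (A := P.toValuationSubring)).mp
      h).1
  have h2 := add_mem h1 (P.algebraMap_mem' b)
  rwa [sub_add_cancel] at h2

theorem hasValue_algebraMap (P : Place K F) (b : K) : HasValue P (algebraMap K F b) b := by
  unfold HasValue
  rw [sub_self]
  exact (ValuationSubring.mem_nonunits_iff_exists_mem_maximalIdeal
    (A := P.toValuationSubring)).mpr ⟨ZeroMemClass.zero_mem _, Ideal.zero_mem _⟩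

/-- `HasValue` in terms of the residue map -/
theorem hasValue_iff_residue {P : Place K F} {f : F} (hf : f ∈ P.toValuationSubring) {b : K} :
    HasValue P f b ↔
      IsLocalRing.residue P.toValuationSubring ⟨f, hf⟩ = algebraMap K P.ResidueField b := by
  have e : algebraMap K P.ResidueField b =
      IsLocalRing.residue P.toValuationSubring (algebraMap K P.toValuationSubring b) := rfl
  rw [e, ← sub_eq_zero, ← map_sub, IsLocalRing.residue_eq_zero_iff,
    ← ValuationSubring.coe_mem_nonunits_iff]
  rfl

theorem hasValue_unique {P : Place K F} {f : F} {b b' : K} (h : HasValue P f b)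
    (h' : HasValue P f b') : b = b' := by
  have hf := hasValue_mem h
  rw [hasValue_iff_residue hf] at h h'
  exact (algebraMap K P.ResidueField).injective (h.symm.trans h')

/-- surjectivity of `K → κ(P)` from the existence of values -/
theorem bijective_algebraMap_residueField (P : Place K F)
    (hres : ∀ f : F, f ∈ P.toValuationSubring → ∃ a : K, HasValue P f a) :
    Function.Bijective (algebraMap K P.ResidueField) := by
  refine ⟨(algebraMap K P.ResidueField).injective, fun c => ?_⟩
  obtain ⟨f, rfl⟩ := IsLocalRing.residue_surjective c
  obtain ⟨a, ha⟩ := hres (f : F) f.2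
  exact ⟨a, ((hasValue_iff_residue f.2).mp ha).symm⟩

/-- **the value homomorphism** at a place with residue field `K`, on a ring of functions
regular at the place -/
def evHom (P : Place K F) (hbij : Function.Bijective (algebraMap K P.ResidueField))
    {B : Type*} [CommRing B] (ι : B →+* F) (hι : ∀ b, ι b ∈ P.toValuationSubring) : B →+* K :=
  ((RingEquiv.ofBijective (algebraMap K P.ResidueField) hbij).symm :
      P.ResidueField →+* K).comp
    ((IsLocalRing.residue P.toValuationSubring).comp
      (ι.codRestrict P.toValuationSubring hι))

theorem evHom_eq_iff (P : Place K F) (hbij : Function.Bijective (algebraMap K P.ResidueField))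
    {B : Type*} [CommRing B] (ι : B →+* F) (hι : ∀ b, ι b ∈ P.toValuationSubring) (b : B)
    (c : K) : evHom P hbij ι hι b = c ↔ HasValue P (ι b) c := by
  rw [hasValue_iff_residue (hι b)]
  unfold evHom
  rw [RingHom.comp_apply, RingHom.coe_coe, RingEquiv.symm_apply_eq]
  rfl

end HasValueAPI

section Single

theorem algebraMap_eq_single {K : Type*} [Field K] (c : K) :
    algebraMap K (LaurentSeries K) c = HahnSeries.single 0 c := by
  have h1 : algebraMap K (PowerSeries K) c = PowerSeries.C c := by simp
  rw [HahnSeries.algebraMap_apply', h1, HahnSeries.ofPowerSeries_C]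
  rfl

end Single

section ValuationSubringIntegral

variable {F : Type*} [Field F]

/-- an element integral over a ring mapping into a valuation subring lies in it -/
theorem mem_valuationSubring_of_isIntegralElem (O : ValuationSubring F) {R : Type*} [CommRing R]
    (f : R →+* F) (hf : ∀ r, f r ∈ O) {z : F} (hz : f.IsIntegralElem z) : z ∈ O := by
  obtain ⟨p, hpm, hp⟩ := hz
  let f' : R →+* O := f.codRestrict O hf
  have hint : IsIntegral O z := by
    refine ⟨p.map f', hpm.map f', ?_⟩
    rw [Polynomial.eval₂_map]
    have : (algebraMap O F).comp f' = f := by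
      ext r
      rfl
    rw [this]
    exact hp
  obtain ⟨y, hy⟩ := (IsIntegrallyClosed.isIntegral_iff (R := O) (K := F)).mp hint
  rw [← hy]
  exact y.2

end ValuationSubringIntegral

section Chart

variable (A : ValuationSubring (AlgebraicClosure ℚ)) (N : ℕ)

/-- the ring of `A`-integral q-series in `F` with reduction in `F_k`, integral over `A[x]` -/
def chartRing (x : LaurentSeries A) : Subring (LaurentSeries A) where
  carrier := {y | coeffMap A.subtype y ∈ modularFunctionFieldBar N ∧
    coeffMap (IsLocalRing.residue A) y ∈
      modularFunctionFieldFullC (IsLocalRing.ResidueField A) N ∧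
    (evalSeries A x).IsIntegralElem y}
  mul_mem' := fun {a b} ha hb =>
    ⟨by rw [map_mul]; exact mul_mem ha.1 hb.1, by rw [map_mul]; exact mul_mem ha.2.1 hb.2.1,
      RingHom.IsIntegralElem.mul _ ha.2.2 hb.2.2⟩
  one_mem' :=
    ⟨by rw [map_one]; exact one_mem _, by rw [map_one]; exact one_mem _,
      RingHom.isIntegralElem_one _⟩
  add_mem' := fun {a b} ha hb =>
    ⟨by rw [map_add]; exact add_mem ha.1 hb.1, by rw [map_add]; exact add_mem ha.2.1 hb.2.1,
      RingHom.IsIntegralElem.add _ ha.2.2 hb.2.2⟩
  zero_mem' :=
    ⟨by rw [map_zero]; exact zero_mem _, by rw [map_zero]; exact zero_mem _,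
      RingHom.isIntegralElem_zero _⟩
  neg_mem' := fun {a} ha =>
    ⟨by rw [map_neg]; exact neg_mem ha.1, by rw [map_neg]; exact neg_mem ha.2.1,
      RingHom.IsIntegralElem.neg _ ha.2.2⟩

variable {A N}

theorem mem_chartRing_iff {x y : LaurentSeries A} :
    y ∈ chartRing A N x ↔ coeffMap A.subtype y ∈ modularFunctionFieldBar N ∧
      coeffMap (IsLocalRing.residue A) y ∈
        modularFunctionFieldFullC (IsLocalRing.ResidueField A) N ∧
      (evalSeries A x).IsIntegralElem y := Iff.rfl

theorem intElt_mem_chartRing (c : IntElt A N) {x : LaurentSeries A}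
    (h : (evalSeries A x).IsIntegralElem c.y) : c.y ∈ chartRing A N x :=
  ⟨c.mem, c.memk, h⟩

theorem isFin_iff_isIntegralElem (c : IntElt A N) :
    c.IsFin ↔ (evalSeries A (jqModC A)).IsIntegralElem c.y := Iff.rfl

theorem isInf_iff_isIntegralElem (c : IntElt A N) {u : LaurentSeries A} (hu : u * jqModC A = 1) :
    c.IsInf ↔ (evalSeries A u).IsIntegralElem c.y := by
  constructor
  · rintro ⟨u', hu', h⟩
    have : u' = u := by
      calc u' = u' * (u * jqModC A) := by rw [hu, mul_one]
        _ = (u' * jqModC A) * u := by ring
        _ = u := by rw [hu', one_mul]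
    rw [← this]
    exact h
  · intro h
    exact ⟨u, hu, h⟩

/-- the `IntElt` of an element of the chart ring -/
def ofChart {x : LaurentSeries A} (y : chartRing A N x) : IntElt A N :=
  ⟨y.1, y.2.1, y.2.2.1⟩

/-- constants -/
theorem C_mem_chartRing (x : LaurentSeries A) (a : A) :
    (HahnSeries.C a : LaurentSeries A) ∈ chartRing A N x := by
  refine ⟨?_, ?_, ?_⟩
  · have : coeffMap A.subtype (HahnSeries.C a) =
        algebraMap (AlgebraicClosure ℚ) (LaurentSeries (AlgebraicClosure ℚ)) (a : AlgebraicClosure ℚ) := by
      rw [HahnSeries.C_apply, coeffMap_single, algebraMap_eq_single]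
      rfl
    rw [this]
    exact (modularFunctionFieldBar N).algebraMap_mem _
  · have : coeffMap (IsLocalRing.residue A) (HahnSeries.C a) =
        algebraMap (IsLocalRing.ResidueField A) (LaurentSeries (IsLocalRing.ResidueField A))
          (IsLocalRing.residue A a) := by
      rw [HahnSeries.C_apply, coeffMap_single, algebraMap_eq_single]
    rw [this]
    exact (modularFunctionFieldFullC (IsLocalRing.ResidueField A) N).algebraMap_mem _
  · have h := (evalSeries A x).isIntegralElem_map (x := Polynomial.C a)
    have e : evalSeries A x (Polynomial.C a) = HahnSeries.C a := by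
      unfold evalSeries
      rw [Polynomial.coe_eval₂RingHom, Polynomial.eval₂_C]
    rwa [e] at h

/-- the reduction homomorphism of the chart ring -/
def spHom (x : LaurentSeries A) :
    chartRing A N x →+* modularFunctionFieldFullC (IsLocalRing.ResidueField A) N :=
  ((coeffMap (IsLocalRing.residue A)).comp (chartRing A N x).subtype).codRestrict
    (modularFunctionFieldFullC (IsLocalRing.ResidueField A) N) (fun y => y.2.2.1)

theorem spHom_apply (x : LaurentSeries A) (y : chartRing A N x) :
    spHom x y = (ofChart y).sp := rfl

theorem spHom_mk (x : LaurentSeries A) (c : IntElt A N)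
    (h : (evalSeries A x).IsIntegralElem c.y) :
    spHom x ⟨c.y, intElt_mem_chartRing c h⟩ = c.sp := rfl

theorem spHom_C (x : LaurentSeries A) (a : A) :
    spHom (N := N) x ⟨HahnSeries.C a, C_mem_chartRing x a⟩ =
      algebraMap (IsLocalRing.ResidueField A)
        (modularFunctionFieldFullC (IsLocalRing.ResidueField A) N) (IsLocalRing.residue A a) := by
  apply Subtype.ext
  show coeffMap (IsLocalRing.residue A) (HahnSeries.C a) =
    algebraMap (IsLocalRing.ResidueField A) (LaurentSeries (IsLocalRing.ResidueField A))
      (IsLocalRing.residue A a)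
  rw [HahnSeries.C_apply, coeffMap_single, algebraMap_eq_single]

/-- the reduction of an element of the chart ring is integral over `k[x̄]` -/
theorem spHom_isIntegralElem (x : IntElt A N) (y : chartRing A N x.y) :
    (Polynomial.eval₂RingHom
      ((algebraMap (IsLocalRing.ResidueField A)
        (modularFunctionFieldFullC (IsLocalRing.ResidueField A) N)).comp (IsLocalRing.residue A))
      x.sp).IsIntegralElem (spHom x.y y) := by
  obtain ⟨p, hpm, hp⟩ := y.2.2.2
  refine ⟨p, hpm, ?_⟩
  apply Subtype.ext
  have h1 := congrArg (coeffMap (IsLocalRing.residue A)) hp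
  rw [map_zero, Polynomial.hom_eval₂] at h1
  have h2 := Polynomial.hom_eval₂ p
    (Polynomial.eval₂RingHom
      ((algebraMap (IsLocalRing.ResidueField A)
        (modularFunctionFieldFullC (IsLocalRing.ResidueField A) N)).comp (IsLocalRing.residue A))
      x.sp)
    (modularFunctionFieldFullC (IsLocalRing.ResidueField A) N).val.toRingHom (spHom x.y y)
  have e : ((modularFunctionFieldFullC (IsLocalRing.ResidueField A) N).val.toRingHom).comp
      (Polynomial.eval₂RingHom
        ((algebraMap (IsLocalRing.ResidueField A)
          (modularFunctionFieldFullC (IsLocalRing.ResidueField A) N)).comp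
            (IsLocalRing.residue A)) x.sp) =
      (coeffMap (IsLocalRing.residue A)).comp (evalSeries A x.y) := by
    apply Polynomial.ringHom_ext
    · intro a
      simp only [RingHom.comp_apply, Polynomial.coe_eval₂RingHom, Polynomial.eval₂_C, evalSeries]
      show algebraMap (IsLocalRing.ResidueField A) (LaurentSeries (IsLocalRing.ResidueField A))
        (IsLocalRing.residue A a) = coeffMap (IsLocalRing.residue A) (HahnSeries.C a)
      rw [HahnSeries.C_apply, coeffMap_single, algebraMap_eq_single]
    · simp only [RingHom.comp_apply, Polynomial.coe_eval₂RingHom, Polynomial.eval₂_X, evalSeries]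
      rfl
  rw [e] at h2
  show (modularFunctionFieldFullC (IsLocalRing.ResidueField A) N).val.toRingHom _ = _
  rw [h2]
  exact h1

/-- at a place where `x̄` is regular, all reductions of the chart ring are regular -/
theorem spHom_mem (x : IntElt A N)
    (Q : Place (IsLocalRing.ResidueField A)
      (modularFunctionFieldFullC (IsLocalRing.ResidueField A) N))
    (hQ : x.sp ∈ Q.toValuationSubring) (y : chartRing A N x.y) :
    (spHom x.y y : modularFunctionFieldFullC (IsLocalRing.ResidueField A) N) ∈
      Q.toValuationSubring := by
  refine mem_valuationSubring_of_isIntegralElem Q.toValuationSubring _ ?_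
    (spHom_isIntegralElem x y)
  intro p
  induction p using Polynomial.induction_on' with
  | add p q hp hq => rw [map_add]; exact add_mem hp hq
  | monomial n a =>
    rw [Polynomial.coe_eval₂RingHom, Polynomial.eval₂_monomial]
    exact mul_mem (Q.algebraMap_mem' _) (pow_mem hQ n)

end Chart

end Fermat.Agent.S37.H766
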